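/-
S29 / M4b / K4 support (helper21): `p`-th roots of "algebraic" Laurent series.

If `ι : K →+* L` is a homomorphism of fields, `K` algebraically closed of characteristic `0`,
and `y : L((q))` has `y ^ p = coeffMap ι w` for some `w : K((q))` (`p ≠ 0`), then `y` itself is
`coeffMap ι v` for some `v : K((q))`.  Mathlib + Prelude (`coeffMap`) only.
-/
import Mathlib
import Fermat.Prelude.Def_ModularCurve_LaurentCoeff

set_option autoImplicit false

noncomputable section

namespace Fermat.Agent.S29.H21

open ModularCurve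

section Root

variable {K L : Type*} [Field K] [Field L]

/-- In an algebraically closed field of characteristic `0` mapping to `L`, every element of `L`
whose `p`-th power comes from `K` comes from `K`. -/
theorem mem_fieldRange_of_pow_mem [IsAlgClosed K] [CharZero K] (ι : K →+* L) {p : ℕ}
    (hp : p ≠ 0) {x : L} (hx : x ^ p ∈ ι.fieldRange) : x ∈ ι.fieldRange := by
  obtain ⟨c, hc⟩ := hx
  by_cases hc0 : c = 0
  · subst hc0
    rw [map_zero] at hc
    have : x = 0 := by
      by_contra h
      exact pow_ne_zero p h hc.symm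
    rw [this]
    exact zero_mem _
  obtain ⟨d, hd⟩ := IsAlgClosed.exists_pow_nat_eq c (Nat.pos_of_ne_zero hp)
  have hd0 : d ≠ 0 := by
    rintro rfl
    rw [zero_pow hp] at hd
    exact hc0 hd.symm
  have : NeZero p := ⟨hp⟩
  have : NeZero (p : K) := ⟨by exact_mod_cast hp⟩
  obtain ⟨ζ, hζ⟩ := HasEnoughRootsOfUnity.exists_primitiveRoot K p
  have hζL : IsPrimitiveRoot (ι ζ) p := hζ.map_of_injective ι.injective
  have hιd : ι d ≠ 0 := (map_ne_zero ι).mpr hd0
  have hxp : x ^ p ≠ 0 := by rw [← hc]; exact (map_ne_zero ι).mpr hc0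
  have hu : (x / ι d) ^ p = 1 := by
    rw [div_pow, ← map_pow, hd, hc]
    exact div_self hxp
  obtain ⟨i, -, hi⟩ := hζL.eq_pow_of_pow_eq_one hu
  refine ⟨ζ ^ i * d, ?_⟩
  rw [map_mul, map_pow, hi]
  field_simp

end Root

section PowerSeriesRoot

variable {L : Type*} [Field L]

/-- Power series all of whose coefficients lie in a subfield `K'`. -/
def coeffSubring (K' : Subfield L) : Subring (PowerSeries L) where
  carrier := {f | ∀ k, PowerSeries.coeff k f ∈ K'}
  mul_mem' := by
    intro f g hf hg k
    rw [PowerSeries.coeff_mul]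
    exact sum_mem fun x _ => mul_mem (hf _) (hg _)
  one_mem' := by
    intro k
    rw [PowerSeries.coeff_one]
    split_ifs
    · exact one_mem _
    · exact zero_mem _
  add_mem' := by
    intro f g hf hg k
    rw [map_add]
    exact add_mem (hf _) (hg _)
  zero_mem' := by
    intro k
    rw [map_zero]
    exact zero_mem _
  neg_mem' := by
    intro f hf k
    rw [map_neg]
    exact neg_mem (hf _)

theorem mem_coeffSubring {K' : Subfield L} {f : PowerSeries L} :
    f ∈ coeffSubring K' ↔ ∀ k, PowerSeries.coeff k f ∈ K' := Iff.rfl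

/-- A power series with nonzero constant coefficient in `K'` whose `p`-th power has coefficients
in `K'` has coefficients in `K'` (`p` invertible in `L`). -/
theorem mem_coeffSubring_of_pow_mem (K' : Subfield L) {p : ℕ} (hp : (p : L) ≠ 0)
    {y : PowerSeries L} (h0 : PowerSeries.coeff 0 y ∈ K') (h0' : PowerSeries.coeff 0 y ≠ 0)
    (hy : y ^ p ∈ coeffSubring K') : y ∈ coeffSubring K' := by
  intro m
  induction m using Nat.strong_induction_on with
  | _ m ih =>
    rcases Nat.eq_zero_or_pos m with rfl | hm
    · exact h0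
    set a : PowerSeries L := ((PowerSeries.trunc m y : Polynomial L) : PowerSeries L) with ha
    have ha_coeff : ∀ k, PowerSeries.coeff k a = if k < m then PowerSeries.coeff k y else 0 := by
      intro k
      rw [ha, Polynomial.coeff_coe, PowerSeries.coeff_trunc]
    have ha_mem : a ∈ coeffSubring K' := by
      intro k
      rw [ha_coeff]
      split_ifs with hk
      · exact ih k hk
      · exact zero_mem _
    obtain ⟨b', hb'⟩ : (PowerSeries.X : PowerSeries L) ^ m ∣ y - a := by
      rw [PowerSeries.X_pow_dvd_iff]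
      intro k hk
      rw [map_sub, ha_coeff, if_pos hk, sub_self]
    have hy_eq : y = a + PowerSeries.X ^ m * b' := by rw [← hb']; ring
    have hb'0 : PowerSeries.coeff 0 b' = PowerSeries.coeff m y := by
      have h := congrArg (PowerSeries.coeff m) hb'
      rw [PowerSeries.coeff_X_pow_mul', if_pos le_rfl, Nat.sub_self, map_sub, ha_coeff,
        if_neg (lt_irrefl m), sub_zero] at h
      exact h.symm
    have ha0 : PowerSeries.coeff 0 a = PowerSeries.coeff 0 y := by
      rw [ha_coeff, if_pos hm]
    obtain ⟨z, hz⟩ := Polynomial.powAddExpansion a (PowerSeries.X ^ m * b') p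
    have h1 : (p : PowerSeries L) * a ^ (p - 1) * (PowerSeries.X ^ m * b')
        = PowerSeries.X ^ m * ((p : PowerSeries L) * a ^ (p - 1) * b') := by ring
    have h2 : z * (PowerSeries.X ^ m * b') ^ 2
        = PowerSeries.X ^ (2 * m) * (z * b' ^ 2) := by ring
    have hA : PowerSeries.coeff m (PowerSeries.X ^ m * ((p : PowerSeries L) * a ^ (p - 1) * b'))
        = (p : L) * (PowerSeries.coeff 0 a) ^ (p - 1) * PowerSeries.coeff 0 b' := by
      rw [PowerSeries.coeff_X_pow_mul', if_pos le_rfl, Nat.sub_self]
      simp only [PowerSeries.coeff_zero_eq_constantCoeff, map_mul, map_pow, map_natCast]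
    have hB : PowerSeries.coeff m (PowerSeries.X ^ (2 * m) * (z * b' ^ 2)) = 0 := by
      rw [PowerSeries.coeff_X_pow_mul', if_neg (by omega)]
    have hc : PowerSeries.coeff m (y ^ p) = PowerSeries.coeff m (a ^ p)
        + (p : L) * (PowerSeries.coeff 0 y) ^ (p - 1) * PowerSeries.coeff m y := by
      have h3 : y ^ p = a ^ p + PowerSeries.X ^ m * ((p : PowerSeries L) * a ^ (p - 1) * b')
          + PowerSeries.X ^ (2 * m) * (z * b' ^ 2) := by
        rw [← h1, ← h2, ← hz, ← hy_eq]
      rw [h3, map_add, map_add, hA, hB, add_zero, ha0, hb'0]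
    have hden : (p : L) * (PowerSeries.coeff 0 y) ^ (p - 1) ≠ 0 :=
      mul_ne_zero hp (pow_ne_zero _ h0')
    have hsol : PowerSeries.coeff m y
        = (PowerSeries.coeff m (y ^ p) - PowerSeries.coeff m (a ^ p))
          / ((p : L) * (PowerSeries.coeff 0 y) ^ (p - 1)) := by
      rw [hc]
      field_simp
      ring
    rw [hsol]
    exact div_mem (sub_mem (hy m) ((pow_mem ha_mem p) m))
      (mul_mem (natCast_mem K' p) (pow_mem h0 _))

end PowerSeriesRoot

section LaurentRoot

variable {K L : Type*} [Field K] [Field L]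

/-- A Laurent series over `L` all of whose coefficients lie in the image of `ι` is in the range
of `coeffMap ι`. -/
theorem exists_coeffMap_eq_of_coeff_mem (ι : K →+* L) (y : LaurentSeries L)
    (h : ∀ k, y.coeff k ∈ ι.fieldRange) : ∃ v : LaurentSeries K, coeffMap ι v = y := by
  classical
  have h' : ∀ k, ∃ c : K, ι c = y.coeff k := fun k => h k
  choose c hc using h'
  refine ⟨⟨c, y.isPWO_support.mono ?_⟩, ?_⟩
  · intro k hk
    rw [Function.mem_support] at hk
    rw [HahnSeries.mem_support, ← hc k]
    exact (map_ne_zero ι).mpr hk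
  · ext k
    rw [coeffMap_coeff]
    exact hc k

/-- **`p`-th roots of algebraic Laurent series are algebraic.** -/
theorem exists_coeffMap_eq_of_pow_eq [IsAlgClosed K] [CharZero K] (ι : K →+* L) {p : ℕ}
    (hp : p ≠ 0) {y : LaurentSeries L} {w : LaurentSeries K} (h : y ^ p = coeffMap ι w) :
    ∃ v : LaurentSeries K, coeffMap ι v = y := by
  by_cases hy0 : y = 0
  · exact ⟨0, by rw [map_zero, hy0]⟩
  apply exists_coeffMap_eq_of_coeff_mem
  have hpL : (p : L) ≠ 0 := by
    rw [← map_natCast ι p]
    exact (map_ne_zero ι).mpr (by exact_mod_cast hp)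
  have hy : HahnSeries.single y.order 1 * HahnSeries.ofPowerSeries ℤ L y.powerSeriesPart = y :=
    LaurentSeries.single_order_mul_powerSeriesPart y
  have hyp : y ^ p = HahnSeries.single (p • y.order) 1
      * HahnSeries.ofPowerSeries ℤ L (y.powerSeriesPart ^ p) := by
    conv_lhs => rw [← hy]
    rw [mul_pow, HahnSeries.single_pow, one_pow, map_pow]
  have hpow : ∀ k : ℕ, PowerSeries.coeff k (y.powerSeriesPart ^ p) ∈ ι.fieldRange := by
    intro k
    have h1 : (y ^ p).coeff (p • y.order + k) = PowerSeries.coeff k (y.powerSeriesPart ^ p) := by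
      rw [hyp, HahnSeries.coeff_single_mul, one_mul, add_sub_cancel_left,
        HahnSeries.ofPowerSeries_apply_coeff]
    rw [← h1, h, coeffMap_coeff]
    exact ⟨_, rfl⟩
  have h0' : PowerSeries.coeff 0 y.powerSeriesPart ≠ 0 := by
    rw [LaurentSeries.powerSeriesPart_coeff]
    rw [Nat.cast_zero, add_zero]
    exact fun h0 => hy0 (HahnSeries.coeff_order_eq_zero.mp h0)
  have h0 : PowerSeries.coeff 0 y.powerSeriesPart ∈ ι.fieldRange := by
    apply mem_fieldRange_of_pow_mem ι hp
    have := hpow 0
    rwa [PowerSeries.coeff_zero_eq_constantCoeff, map_pow,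
      ← PowerSeries.coeff_zero_eq_constantCoeff] at this
  have hmem := mem_coeffSubring_of_pow_mem ι.fieldRange hpL h0 h0' hpow
  intro k
  by_cases hk : y.order ≤ k
  · obtain ⟨n, hn⟩ := Int.le.dest hk
    rw [← hn, ← LaurentSeries.powerSeriesPart_coeff]
    exact hmem n
  · rw [HahnSeries.coeff_eq_zero_of_lt_order (lt_of_not_ge hk)]
    exact zero_mem _

end LaurentRoot

end Fermat.Agent.S29.H21
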