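/-
S29 / M4b / piece K4-UNIQ (helper21): the Kummer class of a character is unique.

`isKum_unique` has EXACTLY the type of `M4b.isKum_unique` in the sub-skeleton of helper822
(origin/helper822 `Fermat/Agent/S29/M4b/Skeleton.lean`).

Proof.  Let `(f, t, U)` and `(f', t', U')` be data for `x`, `x'`.  `V := U * U' ^ (p-1)` is
holomorphic, `Γ₀(N)`-invariant (`ζ ^ p = 1`) and `V ^ p = U ^ p * (U' ^ p) ^ (p-1)` is good, hence
`V` is good and its `q`-expansion `y` lies in `F_ℂ` (MERO, landed `H882`).  `y ^ p` is the image of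
`w := (f t^p) (f' t'^p)^(p-1) ∈ FF N`, hence `y = ι v` with `v ∈ ℚ̄((q))` (`PthRootSeries`), and
`v ∈ FF N` (landed `H882.Inter`).  So `f / f' = (v / (t t'^(p-1) f'))^p` and `x - x' = 0`.
-/
import Fermat.Agent.S29.M4b.Defs
import Fermat.Agent.S29.H882.Inter
import Fermat.Agent.S29.H21.PthRootSeries

set_option autoImplicit false

noncomputable section

open ModularCurve AlgebraicCurve CongruenceSubgroup UpperHalfPlane
open scoped MatrixGroups Manifold Real

namespace Fermat.Agent.S29.H21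

open Fermat.Agent.S24 Fermat.Agent.S29 Fermat.Agent.S29.M4b
open Fermat.Agent.S24.H648 Fermat.Agent.S24.H708

/-- `ζ_p ^ p = 1`. -/
theorem zetaP_pow_self (p : ℕ) [NeZero p] : zetaP p ^ p = 1 := by
  unfold zetaP
  rw [← Complex.exp_nat_mul]
  have hp : (p : ℂ) ≠ 0 := Nat.cast_ne_zero.mpr (NeZero.ne p)
  have : (p : ℂ) * (2 * Real.pi * Complex.I / p) = 2 * Real.pi * Complex.I := by
    field_simp
  rw [this, Complex.exp_two_pi_mul_I]

/-- A function whose `p`-th power has at most exponential growth has at most exponential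
growth. -/
theorem expGrowth_of_pow {F : ℍ → ℂ} {p : ℕ} (hp : p ≠ 0)
    (h : ExpGrowth (fun τ => F τ ^ p)) : ExpGrowth F := by
  obtain ⟨C, m, hC⟩ := h
  refine ⟨1 + |C|, m, fun τ hτ => ?_⟩
  have h1 := hC τ hτ
  rw [norm_pow] at h1
  have hexp : 1 ≤ Real.exp (2 * π * m * τ.im) := by
    apply Real.one_le_exp
    have := τ.im_pos
    have := Real.pi_pos
    positivity
  have hC0 : 0 ≤ |C| := abs_nonneg C
  by_cases hle : ‖F τ‖ ≤ 1
  · calc ‖F τ‖ ≤ 1 := hle
      _ ≤ (1 + |C|) * Real.exp (2 * π * m * τ.im) := by nlinarith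
  · have hle' : 1 ≤ ‖F τ‖ := (not_le.mp hle).le
    have h2 : ‖F τ‖ ≤ ‖F τ‖ ^ p := le_self_pow₀ hle' hp
    calc ‖F τ‖ ≤ ‖F τ‖ ^ p := h2
      _ ≤ C * Real.exp (2 * π * m * τ.im) := h1
      _ ≤ (1 + |C|) * Real.exp (2 * π * m * τ.im) := by
          have := le_abs_self C
          have := Real.exp_pos (2 * π * m * τ.im)
          nlinarith

/-- A holomorphic `Γ₀(N)`-invariant function whose `p`-th power is good is good. -/
theorem mem_goodRing_of_pow {N : ℕ} {F : ℍ → ℂ} {p : ℕ} (hp : p ≠ 0)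
    (hol : MDifferentiable 𝓘(ℂ) 𝓘(ℂ) F)
    (hinv : ∀ γ ∈ Gamma0 N, ∀ τ : ℍ, F (γ • τ) = F τ)
    (hpow : (fun τ => F τ ^ p) ∈ goodRing N) : F ∈ goodRing N :=
  ⟨hol, hinv, fun g => expGrowth_of_pow hp (hpow.2.2 g)⟩

/-- `coeffMap` along a field embedding is injective. -/
theorem coeffMap_injective' {K L : Type*} [Field K] [Field L] (ι : K →+* L) :
    Function.Injective (coeffMap ι) := by
  intro x y h
  ext k
  have := congrArg (fun z => z.coeff k) h
  simpa using ι.injective this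

variable (N : ℕ) [NeZero N] (p : ℕ) [NeZero p]

omit [NeZero N] in
/-- The product `U * U' ^ (p-1)` of two twisted functions of the same character is good. -/
theorem mul_pow_mem_goodRing {c : G0 N → ZMod p} {U U' : ℍ → ℂ}
    (hU : IsTwisted N p c U) (hU' : IsTwisted N p c U') :
    (fun τ => U τ * U' τ ^ (p - 1)) ∈ goodRing N := by
  have hp : p ≠ 0 := NeZero.ne p
  have hpn : p - 1 + 1 = p := Nat.sub_add_cancel (Nat.pos_of_ne_zero hp)
  refine mem_goodRing_of_pow hp (hU.mdiff.mul (hU'.mdiff.pow _)) ?_ ?_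
  · intro γ hγ τ
    have h1 := hU.hasChar ⟨γ, hγ⟩ τ
    have h2 := hU'.hasChar ⟨γ, hγ⟩ τ
    simp only at h1 h2
    show U (γ • τ) * U' (γ • τ) ^ (p - 1) = U τ * U' τ ^ (p - 1)
    rw [h1, h2, mul_pow]
    have h3 : zetaP p ^ (c ⟨γ, hγ⟩).val * (zetaP p ^ (c ⟨γ, hγ⟩).val) ^ (p - 1) = 1 := by
      rw [← pow_succ', hpn, ← pow_mul, mul_comm, pow_mul, zetaP_pow_self, one_pow]
    calc zetaP p ^ (c ⟨γ, hγ⟩).val * U τ * ((zetaP p ^ (c ⟨γ, hγ⟩).val) ^ (p - 1) * U' τ ^ (p - 1))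
        = (zetaP p ^ (c ⟨γ, hγ⟩).val * (zetaP p ^ (c ⟨γ, hγ⟩).val) ^ (p - 1))
            * (U τ * U' τ ^ (p - 1)) := by ring
      _ = U τ * U' τ ^ (p - 1) := by rw [h3, one_mul]
  · have h : (fun τ => (U τ * U' τ ^ (p - 1)) ^ p)
        = (fun τ => U τ ^ p) * (fun τ => U' τ ^ p) ^ (p - 1) := by
      funext τ
      simp only [Pi.mul_apply, Pi.pow_apply]
      rw [mul_pow, ← pow_mul, ← pow_mul, mul_comm p (p - 1)]
    rw [h]
    exact mul_mem hU.pow_mem (pow_mem hU'.pow_mem _)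

/-- **Piece K4-UNIQ**: the Kummer class of a character is unique. -/
theorem isKum_unique {c : G0 N → ZMod p} {x x' : JZero N}
    (h : IsKum N p c x) (h' : IsKum N p c x') : x = x' := by
  obtain ⟨f, t, U, ht, hx, hU, hR⟩ := h
  obtain ⟨f', t', U', ht', hx', hU', hR'⟩ := h'
  have hp : p ≠ 0 := NeZero.ne p
  have hpn : p - 1 + 1 = p := Nat.sub_add_cancel (Nat.pos_of_ne_zero hp)
  have hf : f ≠ 0 := hx.ne_zero
  have hf' : f' ≠ 0 := hx'.ne_zero
  -- the good function `V`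
  have hVgood := mul_pow_mem_goodRing N p hU hU'
  set V : ℍ → ℂ := fun τ => U τ * U' τ ^ (p - 1) with hV
  have hq : HasQExp 1 V (qexpFun 1 V) := H882.hasQExp_of_mem_goodRing hVgood
  -- the `q`-expansion of `V ^ p`
  have hq1 : HasQExp 1 (fun τ => U τ ^ p)
      (coeffMap Deg457.iotaC (((f * t ^ p : FF N)) : LaurentSeries Kbar)) :=
    ⟨H882.isMerInf_of_mem_goodRing hR.1, hR.2⟩
  have hq2 : HasQExp 1 (fun τ => U' τ ^ p)
      (coeffMap Deg457.iotaC (((f' * t' ^ p : FF N)) : LaurentSeries Kbar)) :=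
    ⟨H882.isMerInf_of_mem_goodRing hR'.1, hR'.2⟩
  have hVp : V ^ p = (fun τ => U τ ^ p) * (fun τ => U' τ ^ p) ^ (p - 1) := by
    funext τ
    simp only [Pi.mul_apply, Pi.pow_apply, hV]
    rw [mul_pow, ← pow_mul, ← pow_mul, mul_comm p (p - 1)]
  have hq3 := hq.pow p
  rw [hVp] at hq3
  have hyp := hq3.unique (hq1.mul (hq2.pow (p - 1)))
  -- algebraicity of the root
  set w : FF N := (f * t ^ p) * (f' * t' ^ p) ^ (p - 1) with hw
  have hyw : qexpFun 1 V ^ p = coeffMap Deg457.iotaC ((w : FF N) : LaurentSeries Kbar) := by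
    rw [hyp, hw]
    simp only [MulMemClass.coe_mul, SubmonoidClass.coe_pow, map_mul, map_pow]
  obtain ⟨v, hv⟩ := exists_coeffMap_eq_of_pow_eq Deg457.iotaC hp hyw
  have hvmem : v ∈ modularFunctionFieldBar N := by
    apply H882.mem_laurentBaseChange_of_coeffMap_mem Deg457.iotaC (modularFunctionFieldFull N)
    rw [hv]
    exact H882.qexpFun_mem_FC hVgood
  have hvp : (⟨v, hvmem⟩ : FF N) ^ p = w := by
    apply Subtype.ext
    apply coeffMap_injective' Deg457.iotaC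
    rw [SubmonoidClass.coe_pow, map_pow, hv, hyw]
  -- `f / f'` is a `p`-th power
  set g : FF N := ⟨v, hvmem⟩ / (t * t' ^ (p - 1) * f') with hg
  have hden : t * t' ^ (p - 1) * f' ≠ 0 :=
    mul_ne_zero (mul_ne_zero ht (pow_ne_zero _ ht')) hf'
  have hgp : f * f'⁻¹ = g ^ p := by
    rw [hg, div_pow, hvp, hw, eq_div_iff (pow_ne_zero _ hden)]
    have e1 : f' ^ p = f' ^ (p - 1) * f' := by rw [← pow_succ, hpn]
    rw [mul_pow, mul_pow, mul_pow, e1, ← pow_mul, ← pow_mul, mul_comm (p - 1) p]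
    field_simp
  have hg0 : g ≠ 0 := by
    intro h0
    rw [h0, zero_pow hp] at hgp
    exact mul_ne_zero hf (inv_ne_zero hf') hgp
  -- Kummer classes
  have hk : H455.IsKummerClass (p : ℤ) (f * f'⁻¹) (x + -x') := hx.add hx'.neg
  have hpz : (p : ℤ) ≠ 0 := by exact_mod_cast hp
  have h0 : x + -x' = 0 := by
    rw [H455.IsKummerClass.eq_zero_iff hpz hk]
    refine ⟨g, hg0, fun v => ?_⟩
    rw [hgp, ← zpow_natCast, Place.ord_zpow]
  exact add_neg_eq_zero.mp h0

end Fermat.Agent.S29.H21
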